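import Mathlib.Analysis.Complex.RemovableSingularity
import Mathlib.Analysis.Complex.UpperHalfPlane.Manifold
import Mathlib.Analysis.SpecificLimits.Basic

/-!
# Meromorphic functions integral over holomorphic functions are holomorphic
-/

set_option autoImplicit false

noncomputable section

open UpperHalfPlane Filter
open scoped Manifold Topology

namespace Fermat.Agent.IntegralStructure

theorem norm_root_le {n : ℕ} {x : ℂ} {c : ℕ → ℂ} {ε : ℝ} (hε : 0 < ε)
    (hc : ∀ j ∈ Finset.Icc 1 n, ‖c j‖ ≤ ε ^ j)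
    (heq : x ^ n + ∑ j ∈ Finset.Icc 1 n, c j * x ^ (n - j) = 0) : ‖x‖ ≤ 2 * ε := by
  by_contra hlt
  push Not at hlt
  have ht : 0 < ‖x‖ := lt_trans (by positivity) hlt
  have hgeo : ∀ m : ℕ, ∑ j ∈ Finset.Icc 1 m, (1 / 2 : ℝ) ^ j = 1 - (1 / 2) ^ m := by
    intro m
    induction m with
    | zero => simp
    | succ m ih => rw [Finset.sum_Icc_succ_top (by omega), ih]; ring
  have h1 : ‖x‖ ^ n ≤ ‖x‖ ^ n * (1 - (1 / 2) ^ n) := by
    calc ‖x‖ ^ n = ‖∑ j ∈ Finset.Icc 1 n, c j * x ^ (n - j)‖ := by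
          rw [← norm_pow, eq_neg_of_add_eq_zero_left heq, norm_neg]
      _ ≤ ∑ j ∈ Finset.Icc 1 n, ‖c j * x ^ (n - j)‖ := norm_sum_le _ _
      _ ≤ ∑ j ∈ Finset.Icc 1 n, ‖x‖ ^ n * (1 / 2) ^ j := by
          refine Finset.sum_le_sum fun j hj => ?_
          have hjn : j ≤ n := (Finset.mem_Icc.1 hj).2
          rw [norm_mul, norm_pow]
          calc ‖c j‖ * ‖x‖ ^ (n - j) ≤ (‖x‖ / 2) ^ j * ‖x‖ ^ (n - j) := by
                gcongr
                exact (hc j hj).trans (by gcongr; linarith)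
            _ = ‖x‖ ^ j * ‖x‖ ^ (n - j) * (1 / 2) ^ j := by ring
            _ = ‖x‖ ^ n * (1 / 2) ^ j := by rw [← pow_add, Nat.add_sub_cancel' hjn]
      _ = ‖x‖ ^ n * (1 - (1 / 2) ^ n) := by rw [← Finset.mul_sum, hgeo]
  have h2 : (0 : ℝ) < ‖x‖ ^ n * (1 / 2) ^ n := by positivity
  linarith

theorem exists_holomorphic_quotient {M D : ℍ → ℂ} (hM : MDiff M) (hD : MDiff D) (hD0 : D ≠ 0)
    {n : ℕ} (hn : 1 ≤ n) {c : ℕ → ℍ → ℂ} (hc : ∀ j ∈ Finset.Icc 1 n, Continuous (c j))
    (heq : ∀ z, M z ^ n + ∑ j ∈ Finset.Icc 1 n, c j z * M z ^ (n - j) * D z ^ j = 0) :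
    ∃ G : ℍ → ℂ, MDiff G ∧ G * D = M := by
  let d : ℂ → ℂ := D ∘ ofComplex
  let m : ℂ → ℂ := M ∘ ofComplex
  let g : ℂ → ℂ := fun z => m z / d z
  have hdiffd : DifferentiableOn ℂ d upperHalfPlaneSet := mdifferentiable_iff.1 hD
  have hdiffm : DifferentiableOn ℂ m upperHalfPlaneSet := mdifferentiable_iff.1 hM
  have hopen := isOpen_upperHalfPlaneSet
  have hquot : ∀ z ∈ upperHalfPlaneSet, d z ≠ 0 → DifferentiableAt ℂ g z := fun z hz hne =>
    (hdiffm.differentiableAt (hopen.mem_nhds hz)).div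
      (hdiffd.differentiableAt (hopen.mem_nhds hz)) hne
  let G : ℂ → ℂ := fun z => limUnder (𝓝[≠] z) g
  have hGeq : ∀ z ∈ upperHalfPlaneSet, d z ≠ 0 → G z = g z := fun z hz hne =>
    ((hquot z hz hne).continuousAt.tendsto.mono_left nhdsWithin_le_nhds).limUnder_eq
  have hG : DifferentiableOn ℂ G upperHalfPlaneSet := by
    intro z₀ hz₀
    refine DifferentiableAt.differentiableWithinAt ?_
    have hpunct : ∀ᶠ z in 𝓝[≠] z₀, d z ≠ 0 := by
      rcases (hdiffd.analyticAt (hopen.mem_nhds hz₀)).eventually_eq_zero_or_eventually_ne_zero with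
        h | h
      · refine absurd (eq_zero_of_frequently hD (τ := ⟨z₀, hz₀⟩) ?_) hD0
        refine Eventually.frequently ?_
        have hct : Tendsto (fun w : ℍ => (w : ℂ)) (𝓝 (⟨z₀, hz₀⟩ : ℍ)) (𝓝 z₀) :=
          continuous_coe.tendsto _
        have h' : ∀ᶠ w : ℍ in 𝓝 (⟨z₀, hz₀⟩ : ℍ), d (w : ℂ) = 0 :=
          hct.eventually (p := fun z => d z = 0) h
        filter_upwards [nhdsWithin_le_nhds h'] with w hw
        simpa [d] using hw
      · exact h
    -- the coefficients are bounded near `z₀`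
    let K : ℝ := 1 + ∑ j ∈ Finset.Icc 1 n, (‖c j ⟨z₀, hz₀⟩‖ + 1)
    have hK : ∀ᶠ z in 𝓝 z₀, ∀ j ∈ Finset.Icc 1 n, ‖c j (ofComplex z)‖ ≤ K := by
      rw [Finset.eventually_all]
      intro j hj
      have hcont : ContinuousAt (fun z => c j (ofComplex z)) z₀ := by
        refine ContinuousAt.comp (hc j hj).continuousAt ?_
        exact (mdifferentiableAt_ofComplex hz₀).continuousAt
      have := (hcont.norm.tendsto).eventually (eventually_le_nhds
        (lt_add_one (‖c j (ofComplex z₀)‖)))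
      filter_upwards [this] with z hz
      refine hz.trans ?_
      rw [ofComplex_apply_of_im_pos hz₀]
      have := Finset.single_le_sum (f := fun j => ‖c j ⟨z₀, hz₀⟩‖ + 1)
        (fun _ _ => by positivity) hj
      simp only [K] at this ⊢
      linarith
    rw [eventually_nhdsWithin_iff] at hpunct
    obtain ⟨r, hr, hball⟩ := Metric.eventually_nhds_iff_ball.1
      ((hK.and hpunct).and (hopen.mem_nhds hz₀))
    have hd : DifferentiableOn ℂ g (Metric.ball z₀ r \ {z₀}) := by
      intro z hz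
      obtain ⟨⟨-, h2⟩, h3⟩ := hball z hz.1
      exact (hquot z h3 (h2 hz.2)).differentiableWithinAt
    have hb : BddAbove (norm ∘ g '' (Metric.ball z₀ r \ {z₀})) := by
      refine ⟨2 * K, ?_⟩
      rintro _ ⟨z, hz, rfl⟩
      obtain ⟨⟨h1, h2⟩, h3⟩ := hball z hz.1
      have hne : d z ≠ 0 := h2 hz.2
      have hK1 : 1 ≤ K := le_add_of_nonneg_right (Finset.sum_nonneg fun _ _ => by positivity)
      refine norm_root_le (c := fun j => c j (ofComplex z)) (n := n) (by linarith)
        (fun j hj => (h1 j hj).trans (le_self_pow₀ hK1 (by simp at hj; omega))) ?_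
      have := heq (ofComplex z)
      have hne' : d z ^ n ≠ 0 := pow_ne_zero _ hne
      refine mul_left_cancel₀ hne' ?_
      rw [mul_zero, ← this, mul_add, Finset.mul_sum]
      congr 1
      · simp only [g, m, d, Function.comp_apply, div_pow] at hne' ⊢
        rw [mul_div_cancel₀ _ hne']
      · refine Finset.sum_congr rfl fun j hj => ?_
        have hjn : j ≤ n := (Finset.mem_Icc.1 hj).2
        simp only [g, m, d, Function.comp_apply, div_pow] at hne hne' ⊢
        have : D (ofComplex z) ^ n = D (ofComplex z) ^ j * D (ofComplex z) ^ (n - j) := by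
          rw [← pow_add, Nat.add_sub_cancel' hjn]
        rw [this]
        field_simp
    have hu := Complex.differentiableOn_update_limUnder_of_bddAbove
      (Metric.ball_mem_nhds z₀ hr) hd hb
    refine (hu.differentiableAt (Metric.ball_mem_nhds z₀ hr)).congr_of_eventuallyEq ?_
    filter_upwards [Metric.ball_mem_nhds z₀ hr] with z hz
    rcases eq_or_ne z z₀ with rfl | hne
    · simp [G]
    · obtain ⟨⟨-, h2⟩, h3⟩ := hball z hz
      rw [Function.update_of_ne hne, hGeq z h3 (h2 hne)]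
  refine ⟨fun τ => G τ, mdifferentiable_iff.2 (hG.congr fun z hz => ?_), funext fun τ => ?_⟩
  · simp [Function.comp_apply, ofComplex_apply_of_im_pos hz]
  · show G τ * D τ = M τ
    by_cases hne : D τ = 0
    · rw [hne, mul_zero]
      have h := heq τ
      rw [hne, Finset.sum_eq_zero (fun j hj => by
        rw [zero_pow (by simp at hj; omega), mul_zero]), add_zero] at h
      exact ((pow_eq_zero_iff (by omega)).1 h).symm
    · rw [hGeq τ τ.im_pos (by simpa [d] using hne)]
      simp only [g, d, m, Function.comp_apply, ofComplex_apply]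
      field_simp

end Fermat.Agent.IntegralStructure
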