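import Fermat.Agent.IntegralStructure.QRing
import Fermat.Agent.IntegralStructure.FormalSeries

/-!
# Level one forms are spanned by forms with integral `q`-expansion, and their conjugates
-/

set_option autoImplicit false

noncomputable section

open UpperHalfPlane Function ModularForm EisensteinSeries
open scoped Manifold Topology MatrixGroups ModularForm

namespace Fermat.Agent.IntegralStructure

/-- Invariance of weight `k` under the whole modular group. -/
def IsFullInvariant (k : ℤ) (f : ℍ → ℂ) : Prop := ∀ γ : SL(2, ℤ), f ∣[k] γ = f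

/-- Level one forms with integral `q`-expansion. -/
def intLevelOne (k : ℤ) : Set qFun :=
  {x | IsFullInvariant k (x : ℍ → ℂ) ∧ qHom x ∈ intSeries ℂ}

theorem IsFullInvariant.mul {a b : ℤ} {f g : ℍ → ℂ} (hf : IsFullInvariant a f)
    (hg : IsFullInvariant b g) : IsFullInvariant (a + b) (f * g) := by
  intro γ; rw [mul_slash_SL2, hf γ, hg γ]

theorem mul_mem_intLevelOne {a b : ℤ} {x y : qFun} (hx : x ∈ intLevelOne a)
    (hy : y ∈ intLevelOne b) : x * y ∈ intLevelOne (a + b) :=
  ⟨hx.1.mul hy.1, by rw [map_mul]; exact mul_mem hx.2 hy.2⟩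

theorem one_mem_intLevelOne : (1 : qFun) ∈ intLevelOne 0 :=
  ⟨fun γ => is_invariant_one γ, by rw [map_one]; exact one_mem _⟩

theorem pow_mem_intLevelOne {a : ℤ} {x : qFun} (hx : x ∈ intLevelOne a) :
    ∀ n : ℕ, x ^ n ∈ intLevelOne (n * a)
  | 0 => by simpa using one_mem_intLevelOne
  | n + 1 => by
    rw [pow_succ, show ((n + 1 : ℕ) : ℤ) * a = n * a + a by push_cast; ring]
    exact mul_mem_intLevelOne (pow_mem_intLevelOne hx n) hx

theorem sub_mem_intLevelOne {a : ℤ} {x y : qFun} (hx : x ∈ intLevelOne a)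
    (hy : y ∈ intLevelOne a) : x - y ∈ intLevelOne a :=
  ⟨fun γ => by rw [AddSubgroupClass.coe_sub, sub_eq_add_neg, SlashAction.add_slash,
    SlashAction.neg_slash, hx.1, hy.1], by rw [map_sub]; exact sub_mem hx.2 hy.2⟩

theorem isFullInvariant_ofLevelOne {k : ℤ} (c : ModularForm 𝒮ℒ k) :
    IsFullInvariant k (ofLevelOne c : ℍ → ℂ) :=
  fun γ => SlashInvariantFormClass.slash_action_eq c _ ⟨γ, rfl⟩

theorem ofLevelOne_E₄_mem : ofLevelOne E₄ ∈ intLevelOne 4 := by
  refine ⟨isFullInvariant_ofLevelOne E₄, mem_intSeries_iff.2 fun m => ?_⟩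
  rw [qHom_apply, coe_ofLevelOne, E_qExpansion_coeff _ ⟨2, rfl⟩]
  refine ⟨if m = 0 then 1 else 240 * ArithmeticFunction.sigma 3 m, ?_⟩
  split_ifs with hm
  · simp
  · norm_num [show bernoulli 4 = -1 / 30 by decide +kernel]

theorem ofLevelOne_E₆_mem : ofLevelOne E₆ ∈ intLevelOne 6 := by
  refine ⟨isFullInvariant_ofLevelOne E₆, mem_intSeries_iff.2 fun m => ?_⟩
  rw [qHom_apply, coe_ofLevelOne, E_qExpansion_coeff _ ⟨3, rfl⟩]
  refine ⟨if m = 0 then 1 else -(504 * ArithmeticFunction.sigma 5 m), ?_⟩
  split_ifs with hm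
  · simp
  · norm_num [show bernoulli 6 = 1 / 42 by decide +kernel]

/-- The integral form `E₄³ - E₆² = 1728 Δ`. -/
def delta1728 : qFun := ofLevelOne E₄ ^ 3 - ofLevelOne E₆ ^ 2

theorem delta1728_mem : delta1728 ∈ intLevelOne 12 := by
  exact sub_mem_intLevelOne (pow_mem_intLevelOne ofLevelOne_E₄_mem 3)
    (pow_mem_intLevelOne ofLevelOne_E₆_mem 2)

theorem delta1728_apply (z : ℍ) : (delta1728 : ℍ → ℂ) z = 1728 * discriminant z := by
  rw [discriminant_eq_E₄_cube_sub_E₆_sq]
  simp [delta1728]
  ring

/-- Level one forms are spanned by forms with integral `q`-expansion. -/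
theorem ofLevelOne_mem_span (k : ℕ) :
    ∀ c : ModularForm 𝒮ℒ (k : ℤ), ofLevelOne c ∈ Submodule.span ℂ (intLevelOne k) := by
  induction k using Nat.strong_induction_on with
  | _ k ih =>
    intro c
    have hzero : c = 0 → ofLevelOne c ∈ Submodule.span ℂ (intLevelOne k) := by
      intro h
      have : ofLevelOne c = 0 := Subtype.ext (by simp [h])
      rw [this]; exact zero_mem _
    rcases Nat.even_or_odd k with he | ho
    swap
    · exact hzero (levelOne_odd_weight_eq_zero (by exact_mod_cast ho) c)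
    by_cases h2 : k = 2
    · subst h2; exact hzero (rank_zero_iff_forall_zero.1 levelOne_weight_two_rank_zero c)
    obtain ⟨a, b, hab⟩ : ∃ a b : ℕ, 4 * a + 6 * b = k := by
      obtain ⟨r, rfl⟩ := he
      rcases Nat.even_or_odd r with ⟨s, rfl⟩ | ⟨s, rfl⟩
      · exact ⟨s, 0, by omega⟩
      · exact ⟨s - 1, 1, by omega⟩
    set e : qFun := ofLevelOne E₄ ^ a * ofLevelOne E₆ ^ b with he'
    have hemem : e ∈ intLevelOne k := by
      have := mul_mem_intLevelOne (pow_mem_intLevelOne ofLevelOne_E₄_mem a)
        (pow_mem_intLevelOne ofLevelOne_E₆_mem b)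
      rw [← hab]
      push_cast
      rwa [mul_comm (4 : ℤ), mul_comm (6 : ℤ)]
    let E : ModularForm 𝒮ℒ (k : ℤ) :=
      ModularForm.mcast (by rw [← hab]; push_cast; ring) ((E₄.pow a).mul (E₆.pow b))
    have hE : ofLevelOne E = e := Subtype.ext (by simp [E, he'])
    have hE0 : (qExpansion 1 E).coeff 0 = 1 := by
      have h1 := congrArg qHom hE
      rw [qHom_apply, coe_ofLevelOne, map_mul, map_pow, map_pow] at h1
      rw [h1, PowerSeries.coeff_zero_eq_constantCoeff_apply, map_mul, map_pow, map_pow,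
        ← PowerSeries.coeff_zero_eq_constantCoeff_apply, ← PowerSeries.coeff_zero_eq_constantCoeff_apply,
        qHom_apply, qHom_apply, coe_ofLevelOne, coe_ofLevelOne,
        E_qExpansion_coeff_zero _ ⟨2, rfl⟩, E_qExpansion_coeff_zero _ ⟨3, rfl⟩]
      simp
    set c0 : ℂ := (qExpansion 1 c).coeff 0 with hc0
    set g : ModularForm 𝒮ℒ (k : ℤ) := c - c0 • E with hg
    have hg0 : (qExpansion 1 g).coeff 0 = 0 := by
      rw [hg, FunLike.coe_sub, ModularForm.qExpansion_sub one_pos one_mem_strictPeriods_SL,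
        FunLike.coe_smul, ModularForm.qExpansion_smul one_pos one_mem_strictPeriods_SL,
        map_sub, PowerSeries.coeff_smul, hE0, smul_eq_mul, mul_one, sub_self]
    suffices hgm : ofLevelOne g ∈ Submodule.span ℂ (intLevelOne k) by
      have : ofLevelOne c = ofLevelOne g + c0 • e := by
        rw [← hE]; exact Subtype.ext (by simp [hg])
      rw [this]
      exact add_mem hgm (Submodule.smul_mem _ _ (Submodule.subset_span hemem))
    by_cases hk : k < 12
    · have h0 : CuspForm.discriminantEquiv (toCuspForm g hg0) = 0 :=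
        rank_zero_iff_forall_zero.1 (levelOne_neg_weight_rank_zero (by omega)) _
      have hg' : ofLevelOne g = 0 := by
        refine Subtype.ext (funext fun z => ?_)
        have := discriminant_mul_discriminantEquiv_apply (toCuspForm g hg0) z
        simp [h0] at this
        simpa using this.symm
      rw [hg']; exact zero_mem _
    · let h : ModularForm 𝒮ℒ ((k - 12 : ℕ) : ℤ) :=
        ModularForm.mcast (by omega) (CuspForm.discriminantEquiv (toCuspForm g hg0))
      have hprod : ofLevelOne g = (1728 : ℂ)⁻¹ • (delta1728 * ofLevelOne h) := by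
        refine Subtype.ext (funext fun z => ?_)
        have := discriminant_mul_discriminantEquiv_apply (toCuspForm g hg0) z
        simp only [SetLike.val_smul, MulMemClass.coe_mul, Pi.smul_apply, Pi.mul_apply,
          delta1728_apply, coe_ofLevelOne, smul_eq_mul, h, ModularForm.coe_mcast]
        rw [mul_assoc (1728 : ℂ), this, inv_mul_cancel_left₀ (by norm_num : (1728 : ℂ) ≠ 0)]
        rfl
      rw [hprod]
      refine Submodule.smul_mem _ _ ?_
      have hh := ih (k - 12) (by omega) h
      generalize ofLevelOne h = y₀ at hh ⊢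
      induction hh using Submodule.span_induction with
      | mem y hy =>
        refine Submodule.subset_span ?_
        have := mul_mem_intLevelOne delta1728_mem hy
        rwa [show (12 : ℤ) + ((k - 12 : ℕ) : ℤ) = k by omega] at this
      | zero => simp
      | add y y' _ _ hy hy' => rw [mul_add]; exact add_mem hy hy'
      | smul r y _ hy => rw [mul_smul_comm]; exact Submodule.smul_mem _ _ hy

/-- A `qFun` invariant under the full modular group, as a level one modular form. -/
def toLevelOne {k : ℤ} (x : qFun) (hx : IsFullInvariant k (x : ℍ → ℂ)) : ModularForm 𝒮ℒ k where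
  toFun := x
  slash_action_eq' A hA := by obtain ⟨γ, rfl⟩ := hA; exact hx γ
  holo' := x.2.2.1
  bdd_at_cusps' {c} hc := by
    rw [Subgroup.IsArithmetic.isCusp_iff_isCusp_SL2Z] at hc
    rw [OnePoint.isBoundedAt_iff_forall_SL2Z hc]
    intro γ _
    show IsBoundedAtImInfty ((x : ℍ → ℂ) ∣[k] γ)
    rw [hx γ]
    exact x.2.2.2

theorem fullInvariant_mem_span {k : ℤ} (x : qFun) (hx : IsFullInvariant k (x : ℍ → ℂ)) :
    x ∈ Submodule.span ℂ (intLevelOne k) := by
  rcases lt_or_ge k 0 with hk | hk
  · have h0 := rank_zero_iff_forall_zero.1 (levelOne_neg_weight_rank_zero hk) (toLevelOne x hx)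
    have : x = 0 := Subtype.ext (funext fun z => congrArg (fun c : ModularForm 𝒮ℒ k => c z) h0)
    rw [this]; exact zero_mem _
  · lift k to ℕ using hk
    exact ofLevelOne_mem_span k (toLevelOne x hx)

theorem qHom_mem_intSpan {k : ℤ} (x : qFun) (hx : IsFullInvariant k (x : ℍ → ℂ)) :
    qHom x ∈ intSpan := by
  have h := Submodule.mem_map_of_mem (f := qHom.toLinearMap) (fullInvariant_mem_span x hx)
  rw [Submodule.map_span] at h
  refine Submodule.span_le.2 ?_ h
  rintro _ ⟨y, hy, rfl⟩
  exact Submodule.subset_span hy.2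

/-- A field endomorphism of `ℂ` applied to the coefficients of a level one form gives a level
one form of the same weight. -/
theorem exists_conj_levelOne (σ : ℂ →+* ℂ) {k : ℤ} (x : qFun)
    (hx : IsFullInvariant k (x : ℍ → ℂ)) :
    ∃ y : qFun, IsFullInvariant k (y : ℍ → ℂ) ∧ qHom y = PowerSeries.map σ (qHom x) := by
  have h := fullInvariant_mem_span x hx
  clear hx
  induction h using Submodule.span_induction with
  | mem y hy =>
    refine ⟨y, hy.1, ?_⟩
    obtain ⟨z, hz⟩ := hy.2
    rw [← hz]
    ext i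
    simp
  | zero => exact ⟨0, fun γ => SlashAction.zero_slash _ _, by simp⟩
  | add y y' _ _ hy hy' =>
    obtain ⟨u, hu, hu'⟩ := hy
    obtain ⟨v, hv, hv'⟩ := hy'
    exact ⟨u + v, fun γ => by rw [AddMemClass.coe_add, SlashAction.add_slash, hu, hv],
      by simp [hu', hv']⟩
  | smul r y _ hy =>
    obtain ⟨u, hu, hu'⟩ := hy
    refine ⟨σ r • u, fun γ => by rw [SetLike.val_smul, SL_smul_slash, hu], ?_⟩
    rw [map_smul, map_smul, hu']
    ext i
    simp

end Fermat.Agent.IntegralStructure
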